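/-
Programme T1a (S19), brick G7-C CHARTISO part 2 (helper22): generic transport of helper20's
`ChartIso20.chartIso` along an equation `D.iF t = t'`, together with its pure tensor formulas.
-/
import Mathlib
import Fermat.Agent.T1.ChartIso20

set_option autoImplicit false
set_option linter.unusedSectionVars false
set_option linter.style.haveILetI false

noncomputable section

open TensorProduct

namespace Fermat.Agent.T1.ChartIsoConcrete22.Generic

open Fermat.Agent.RED.CORE.CoreIface24
open Fermat.Agent.T1.ModelBC51.Abstract Fermat.Agent.T1.ModelBC51.Equiv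
open Fermat.Agent.T1.Dict59 Fermat.Agent.Jac Fermat.Agent.T1.Coh60
open scoped Fermat.Agent.Jac.BaseChange75

universe u

variable {R K F : Type u} [CommRing R] [Field K] [Field F] [Algebra R K] [Algebra K F]
  [Algebra R F] [IsScalarTower R K F]
variable {R' L F' : Type u} [CommRing R'] [Field L] [Field F'] [Algebra R' L] [Algebra L F']
  [Algebra R' F'] [IsScalarTower R' L F']
variable {π : R} {π' : R'} {Ov : ValuationSubring F} {Ov' : ValuationSubring F'}
  (D : BCData K L π π' Ov Ov') [Algebra R R'] (halg : ∀ r : R, algebraMap R R' r = D.iR r)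
variable {t : F} {B0 B1 : Subalgebra R F} {B0' B1' : Subalgebra R' F'}
  (hK : TwoChartModel R K F π t B0 B1 Ov) [CharZero K]

include halg in
/-- **The chart isomorphism of the model over `L`, at a coordinate `t' = D.iF t`**, with its
pure tensor formulas (`E.e_j (l ⊗ b) = l · D.iF b`). -/
theorem exists_chartIso_std {t' : F'} (ht : D.iF t = t')
    (hL : TwoChartModel R' L F' π' t' B0' B1' Ov') :
    letI := algRL R R' L
    letI := algebra0 B0 B1
    letI := algebra1 B0 B1
    haveI := isScalarTower0 B0 B1
    haveI := isScalarTower1 B0 B1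
    ∃ E : Adapt96.ChartIso ((modelChart hK).baseChange L) t',
      (∀ (l : L) (b : ↥B0),
        ((E.e0 (l ⊗ₜ[R] b) : ↥(C0 (K := L) t')) : F') = algebraMap L F' l * D.iF (b : F)) ∧
      (∀ (l : L) (b : ↥B1),
        ((E.e1 (l ⊗ₜ[R] b) : ↥(C1 (K := L) t')) : F') = algebraMap L F' l * D.iF (b : F)) ∧
      (∀ (l : L) (b : ↥(B0 ⊔ B1)),
        E.e01 (l ⊗ₜ[R] b) = algebraMap L F' l * D.iF (b : F)) := by
  subst ht
  exact ⟨Fermat.Agent.T1.ChartIso20.chartIso D halg hK hL,
    Fermat.Agent.T1.ChartIso20.chartIso_e0_tmul D halg hK hL,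
    Fermat.Agent.T1.ChartIso20.chartIso_e1_tmul D halg hK hL,
    Fermat.Agent.T1.ChartIso20.chartIso_e01_tmul D halg hK hL⟩

end Fermat.Agent.T1.ChartIsoConcrete22.Generic
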