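/-
Programme T1a (S19), brick G7-C CHARTISO part 2 (helper22): the CONCRETE chart isomorphisms.

For `F : Assembly41.Concrete.ModelFamily ℓ M n e` (helper4's explicit models over every number field
`K ∋ ζ_M`, all with coordinate `tq K n e`), the hub `c0 F` over `W = A ∩ ℚ(ζ_M)` and every number
field `L ⊇ K₁ = ℚ(ζ_M)`:

* `exists_stdIso F L hle` : a chart isomorphism `E : ChartIso ((c0 F).baseChange ↥L) (tK F L)` which is
  STANDARD (`ChartIso90.IsStdIso`) with respect to the subtype embeddings `β0 F`, `β1 F`, `β01 F` of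
  the charts of the model over `K₁` into `K₁·F_M`;
* `isCoord F L hle` : `Dict59.IsCoord M (tK F L)`.
-/
import Mathlib
import Fermat.Agent.T1.ChartIsoConcrete22.Generic
import Fermat.Agent.T1.ChartIso90
import Fermat.Agent.T1.Assembly41.ConcreteHub
import Fermat.Agent.T1.Assembly41.FastInst
import Fermat.Agent.T1.ModelBC51.NumFieldGlue
import Fermat.Agent.T1.Dict59.Iface2

set_option autoImplicit false
set_option linter.unusedSectionVars false
set_option linter.style.haveILetI false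

noncomputable section

open TensorProduct

namespace Fermat.Agent.T1.ChartIsoConcrete22

open Fermat.Agent Fermat.Agent.Jac Fermat.Agent.T1.HubInst98
open Fermat.Agent.RED.Interface4 Fermat.Agent.RED.CORE.CoreIface24
open Fermat.Agent.RED.PUR.GaussGen8 Fermat.Agent.RED.PUR.ChartGeneric22
open Fermat.Agent.T1.ModelUnr4.Explicit Fermat.Agent.T1.Coh60
open Fermat.Agent.T1.Assembly41 Fermat.Agent.T1.Assembly41.Concrete
open Fermat.Agent.T1.Dict59 Fermat.Agent.T1.Adapt96 Fermat.Agent.T1.ChartIso90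
open Fermat.Agent.T1.ModelBC51.Abstract Fermat.Agent.T1.ModelBC51.NumFieldGlue
open Fermat.Agent.X0
open scoped Fermat.Agent.Jac.BaseChange75 Fermat.Agent.T1.Assembly41.FastInst
  Fermat.Agent.T1.ChartIso90

variable {ℓ : ℕ} [Fact ℓ.Prime] {M : ℕ} [NeZero M] {n e : ℕ} [NeZero n]
  (F : ModelFamily ℓ M n e)

/-- the embedding of chart 0 of the model over `K₁` into `K₁·F_M`. -/
def β0 : ↥(B0K F (K1 M)) →+* ↥(FK M (K1 M)) := (B0K F (K1 M)).val.toRingHom

/-- the embedding of chart 1. -/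
def β1 : ↥(B1K F (K1 M)) →+* ↥(FK M (K1 M)) := (B1K F (K1 M)).val.toRingHom

/-- the embedding of the overlap. -/
def β01 : ↥(B0K F (K1 M) ⊔ B1K F (K1 M)) →+* ↥(FK M (K1 M)) :=
  (B0K F (K1 M) ⊔ B1K F (K1 M)).val.toRingHom

@[simp] theorem β0_apply (b : ↥(B0K F (K1 M))) : β0 F b = (b : ↥(FK M (K1 M))) := rfl

@[simp] theorem β1_apply (b : ↥(B1K F (K1 M))) : β1 F b = (b : ↥(FK M (K1 M))) := rfl

@[simp] theorem β01_apply (b : ↥(B0K F (K1 M) ⊔ B1K F (K1 M))) :
    β01 F b = (b : ↥(FK M (K1 M))) := rfl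

/-- **`tq L n e` is a coordinate of `L·F_M`.** -/
theorem isCoord (L : IntermediateField ℚ Qbar) [FiniteDimensional ℚ L] (hle : K1 M ≤ L) :
    IsCoord M (tK F L) :=
  ⟨(explicitK F L (hle (zetaK_mem_K1 M))).transc, (explicitK F L (hle (zetaK_mem_K1 M))).finite⟩

attribute [local instance] Coh60.algebra0 Coh60.algebra1 Coh60.isScalarTower0 Coh60.isScalarTower1

/-- **The concrete standard chart isomorphism over `L ⊇ K₁`.** -/
theorem exists_stdIso (L : IntermediateField ℚ Qbar) [FiniteDimensional ℚ L] (hle : K1 M ≤ L) :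
    letI := algAKL (padicPlace ℓ) hle
    ∃ E : ChartIso ((c0 F).baseChange ↥L) (tK F L),
      IsStdIso M hle (β0 F) (β1 F) (β01 F) E := by
  have hζ : zetaK M ∈ L := hle (zetaK_mem_K1 M)
  obtain ⟨hOO', hEE', D, h1, h2, h3, h4, h5⟩ :=
    nonempty_bcData_AK (padicPlace ℓ) hle (Fact.out : ℓ.Prime).ne_zero (hA ℓ) M
      (isUnif_AK (hA ℓ) (K1 M) (unif_irreducible ℓ (K1 M)))
      (isUnif_AK (hA ℓ) L (unif_irreducible ℓ L))
  letI := algAK (padicPlace ℓ) hle
  letI := algAKL (padicPlace ℓ) hle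
  have ht : D.iF (tK F (K1 M)) = tK F L := by
    rw [h5]
    exact Subtype.ext (Fermat.Agent.RED.BASE.EtaQuot12.coeffMap_tq (R := ↥(K1 M)) _ n e)
  obtain ⟨E, e0, e1, e01⟩ := Generic.exists_chartIso_std D h4
    (modelK F (K1 M) (zetaK_mem_K1 M)) ht (modelK F L hζ)
  refine ⟨E, isStdIso_of_tmul (fun l b => ?_) (fun l b => ?_) (fun l b => ?_)⟩
  · rw [e0, h5]; rfl
  · rw [e1, h5]; rfl
  · rw [e01, h5]; rfl

/-- **The chosen concrete chart isomorphism over `L ⊇ K₁`.** -/
def E (L : IntermediateField ℚ Qbar) [FiniteDimensional ℚ L] (hle : K1 M ≤ L) :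
    letI := algAKL (padicPlace ℓ) hle
    ChartIso ((c0 F).baseChange ↥L) (tK F L) :=
  letI := algAKL (padicPlace ℓ) hle
  Classical.choose (exists_stdIso F L hle)

/-- **It is standard.** -/
theorem isStdIso (L : IntermediateField ℚ Qbar) [FiniteDimensional ℚ L] (hle : K1 M ≤ L) :
    letI := algAKL (padicPlace ℓ) hle
    IsStdIso M hle (β0 F) (β1 F) (β01 F) (E F L hle) :=
  letI := algAKL (padicPlace ℓ) hle
  Classical.choose_spec (exists_stdIso F L hle)

end Fermat.Agent.T1.ChartIsoConcrete22
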