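/-
Programme T1a (S19), brick G7-C CHARTISO part 2 (helper22): THE CONCRETE `ChartIsoFamily`.

For `F : Assembly41.Concrete.ModelFamily ℓ M n e` arbitrary, the hub `c0 F`, the concrete chart action
`ChartAct.chartAction F` (helper41) : `concreteFamily F : Dict59.ChartIsoFamily ℓ M (c0 F) (chartAction F)`
= helper90's constructor `chartIsoFamily_of_std` at the concrete standard chart isomorphisms `E F L hle`.
-/
import Mathlib
import Fermat.Agent.T1.ChartIsoConcrete22.Concrete
import Fermat.Agent.T1.ChartIsoFam90
import Fermat.Agent.T1.Assembly41.ChartActConcrete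

set_option autoImplicit false
set_option linter.unusedSectionVars false
set_option linter.style.haveILetI false

noncomputable section

open TensorProduct

namespace Fermat.Agent.T1.ChartIsoConcrete22

open Fermat.Agent Fermat.Agent.Jac Fermat.Agent.T1.HubInst98
open Fermat.Agent.RED.Interface4
open Fermat.Agent.T1.Assembly41 Fermat.Agent.T1.Assembly41.Concrete
open Fermat.Agent.T1.Dict59 Fermat.Agent.T1.Adapt96 Fermat.Agent.T1.ChartIso90
open scoped Fermat.Agent.Jac.BaseChange75 Fermat.Agent.T1.Assembly41.FastInst
  Fermat.Agent.T1.ChartIso90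

attribute [local instance] Coh60.algebra0 Coh60.algebra1 Coh60.isScalarTower0 Coh60.isScalarTower1

variable {ℓ : ℕ} [Fact ℓ.Prime] {M : ℕ} [NeZero M] {n e : ℕ} [NeZero n]
  (F : ModelFamily ℓ M n e)

/-- **The concrete chart isomorphism family** (input of DICT-FINAL). -/
def concreteFamily : ChartIsoFamily ℓ M (c0 F :) (ChartAct.chartAction F) :=
  Fermat.Agent.T1.ChartIsoFam90.chartIsoFamily_of_std ℓ M (c0 F :) (ChartAct.chartAction F)
    (β0 F) (β1 F) (β01 F)
    (fun σ b => ChartAct.coe_σ0 F σ b) (fun σ b => ChartAct.coe_σ1 F σ b)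
    (fun L _ _ => tK F L) (fun L _ hle => isCoord F L hle) (fun L _ hle => E F L hle)
    (fun L _ hle => isStdIso F L hle)

end Fermat.Agent.T1.ChartIsoConcrete22
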